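import Fermat.Agent.MatrixTree.Main

/-!
# Arborescences of a directed multigraph

A multigraph is given by a source and a target for each edge. The minor of its Laplacian counts
the arborescences towards the root; orderings of the edges at each vertex with one edge prescribed
number `(d - 1)!`.
-/

set_option autoImplicit false

noncomputable section

namespace FA.BEST

open Finset Matrix
open FA.MatrixTree (Rest Reaches choiceMatrix det_choiceMatrix_of_reaches
  det_choiceMatrix_of_not_reaches)

variable {V E : Type*} [Fintype V] [Fintype E] [DecidableEq V] [DecidableEq E]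

/-- The outdegree. -/
def outDeg (src : E → V) (v : V) : ℕ := #{e | src e = v}

/-- Indegree equals outdegree everywhere. -/
def Balanced (src tgt : E → V) : Prop := ∀ v, #{e | src e = v} = #{e | tgt e = v}

/-- A successor of each edge, starting where it ends, with a single cycle. -/
def IsCircuit (src tgt : E → V) (σ : Equiv.Perm E) : Prop :=
  (∀ e, src (σ e) = tgt e) ∧ ∀ a b, σ.SameCycle a b

/-- An edge out of every point but the root, leading to the root. -/
abbrev Arborescence (src tgt : E → V) (r : V) :=
  {T : Rest r → E // (∀ u, src (T u) = u) ∧ Reaches r (fun u => tgt (T u))}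

/-- The Laplacian: outdegrees minus numbers of edges. -/
def laplacian (src tgt : E → V) : Matrix V V ℤ :=
  of fun u v => (if u = v then (outDeg src u : ℤ) else 0) - (#{e | src e = u ∧ tgt e = v} : ℕ)

omit [DecidableEq E] in
/-- Tutte's theorem: the minor at the root counts the arborescences. -/
theorem det_laplacian_minor (src tgt : E → V) (r : V) :
    ((laplacian src tgt).submatrix (Subtype.val : Rest r → V) Subtype.val).det =
      Nat.card (Arborescence src tgt r) := by
  classical
  have hrows : (laplacian src tgt).submatrix (Subtype.val : Rest r → V) Subtype.val =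
      of fun u : Rest r => ∑ e ∈ univ.filter (fun e => src e = u.1),
        fun j : Rest r => (if j = u then (1 : ℤ) else 0) - if tgt e = j.1 then 1 else 0 := by
    ext u j
    simp only [laplacian, Matrix.submatrix_apply, Matrix.of_apply, Finset.sum_apply,
      sum_sub_distrib, sum_const, sum_boole, filter_filter, outDeg]
    by_cases h : u = j
    · subst h; simp
    · have : u.1 ≠ j.1 := fun he => h (Subtype.ext he)
      simp [this, Ne.symm h]
  rw [hrows]
  have h2 := (Matrix.detRowAlternating (R := ℤ) (n := Rest r)).toMultilinearMap.map_sum_finset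
    (fun u (e : E) => fun j : Rest r =>
      (if j = u then (1 : ℤ) else 0) - if tgt e = j.1 then 1 else 0)
    (fun u => univ.filter fun e => src e = u.1)
  refine h2.trans ?_
  have hterm : ∀ T : Rest r → E, (Matrix.detRowAlternating (R := ℤ) (n := Rest r)).toMultilinearMap
      (fun u j => (if j = u then (1 : ℤ) else 0) - if tgt (T u) = j.1 then 1 else 0) =
      if Reaches r (fun u => tgt (T u)) then 1 else 0 := fun T => by
    have e : (Matrix.of fun u j : Rest r => (if j = u then (1 : ℤ) else 0) -
        if tgt (T u) = j.1 then 1 else 0) = choiceMatrix r fun u => tgt (T u) := by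
      ext u j
      simp only [choiceMatrix, Matrix.of_apply]
      congr 1 <;> split_ifs <;> rfl
    change Matrix.det (Matrix.of fun u j : Rest r => (if j = u then (1 : ℤ) else 0) -
        if tgt (T u) = j.1 then 1 else 0) = _
    rw [e]
    split_ifs with h
    · convert det_choiceMatrix_of_reaches h
    · convert det_choiceMatrix_of_not_reaches h
  rw [sum_congr rfl fun T _ => hterm T, sum_boole, Nat.card_eq_fintype_card, Fintype.card_subtype]
  congr 2
  ext T
  simp [Fintype.mem_piFinset]

/-- Bijections carrying one point to another. -/
theorem card_equiv_apply_eq {α β : Type*} [Fintype α] [DecidableEq α] [Fintype β]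
    (h : Fintype.card α = Fintype.card β) (a : α) (b : β) :
    Nat.card {φ : α ≃ β // φ a = b} = (Fintype.card β - 1).factorial := by
  classical
  obtain ⟨e⟩ : Nonempty (α ≃ β) := ⟨Fintype.equivOfCardEq h⟩
  set φ₀ := e.trans (Equiv.swap (e a) b) with hφ₀
  have h₀ : φ₀ a = b := by simp [hφ₀]
  let h1 : {π : Equiv.Perm α // π a = a} ≃ {φ : α ≃ β // φ a = b} :=
    (Equiv.equivCongr (Equiv.refl α) φ₀).subtypeEquiv fun π => by
      simp [Equiv.equivCongr, ← h₀]
  let h2 : {π : Equiv.Perm α // π a = a} ≃ {π : Equiv.Perm α // ∀ x, ¬x ≠ a → π x = x} :=
    Equiv.subtypeEquivRight fun π => by simp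
  rw [← Nat.card_congr h1, Nat.card_congr h2,
    ← Nat.card_congr (Equiv.Perm.subtypeEquivSubtypePerm fun x => x ≠ a), Nat.card_perm,
    Nat.card_eq_fintype_card, Fintype.card_subtype_compl, Fintype.card_subtype_eq, h]

end FA.BEST
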