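import Fermat.Agent.BEST.Tours

/-!
# The BEST theorem

Circuits are tours read off from a given edge, and tours are counted by orderings.
-/

set_option autoImplicit false

noncomputable section

namespace FA.BEST

open Finset
open FA.MatrixTree (Rest Reaches extMap)

variable {V E : Type*} [Fintype V] [Fintype E] [DecidableEq V] [DecidableEq E]
variable {src tgt : E → V} {n : ℕ} {e₀ : E}

omit [Fintype V] [DecidableEq V] [DecidableEq E] in
/-- Circuits are the same as tours starting with a given edge. -/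
theorem card_tour_eq_card_circuit (hn : Fintype.card E = n + 1) :
    Nat.card (Tour src tgt n e₀) = Nat.card {σ : Equiv.Perm E // IsCircuit src tgt σ} := by
  classical
  let toPerm : Tour src tgt n e₀ → Equiv.Perm E :=
    fun f => f.1.symm.trans ((Equiv.addRight (1 : Fin (n + 1))).trans f.1)
  have hpow : ∀ (f : Tour src tgt n e₀) (k : ℕ), (toPerm f ^ k) e₀ = f.1 (ix n k) := by
    intro f k
    induction k with
    | zero => simp [f.2.1]
    | succ k ih => rw [pow_succ', Equiv.Perm.mul_apply, ih]; simp [toPerm, ix_succ]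
  have hcirc : ∀ f, IsCircuit src tgt (toPerm f) := fun f => by
    refine ⟨fun e => ?_, fun a b => ?_⟩
    · simpa [toPerm] using f.2.2 (f.1.symm e)
    · have h : ∀ e, (toPerm f).SameCycle e₀ e := fun e =>
        ⟨((f.1.symm e : ℕ) : ℤ), by rw [zpow_natCast, hpow]; simp⟩
      exact (h a).symm.trans (h b)
  refine Nat.card_eq_of_bijective (fun f => ⟨toPerm f, hcirc f⟩) ⟨fun f g h => ?_, ?_⟩
  · have h' : toPerm f = toPerm g := congrArg Subtype.val h
    refine Subtype.ext (Equiv.ext fun i => ?_)
    have h1 := hpow f i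
    rw [h', hpow g i] at h1
    simpa using h1.symm
  rintro ⟨σ, hσ, hcyc⟩
  set p := Function.minimalPeriod σ e₀ with hp
  have hsurj : ∀ e, ∃ k < p, (σ ^ k) e₀ = e := fun e => by
    obtain ⟨k, hk⟩ := (hcyc e₀ e).exists_nat_pow_eq
    refine ⟨k % p, Nat.mod_lt _ ?_, ?_⟩
    · exact Function.minimalPeriod_pos_of_mem_periodicPts
        (σ.injective.mem_periodicPts e₀)
    · rw [← hk, ← Equiv.Perm.iterate_eq_pow, ← Equiv.Perm.iterate_eq_pow,
        hp, Function.iterate_mod_minimalPeriod_eq]
  have hinj : Set.InjOn (fun k => (σ ^ k) e₀) (Finset.range p) := by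
    intro i hi j hj h
    simp only [← Equiv.Perm.iterate_eq_pow, coe_range, Set.mem_Iio] at hi hj h
    exact Function.iterate_injOn_Iio_minimalPeriod hi hj h
  have hpn : p = n + 1 := by
    refine le_antisymm ?_ ?_
    · have := card_le_univ ((range p).image fun k => (σ ^ k) e₀)
      rwa [card_image_of_injOn hinj, card_range, hn] at this
    · have h1 : (univ : Finset E) ⊆ (range p).image fun k => (σ ^ k) e₀ := fun e _ => by
        obtain ⟨k, hk, h⟩ := hsurj e
        exact mem_image.2 ⟨k, mem_range.2 hk, h⟩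
      have := (card_le_card h1).trans card_image_le
      rwa [card_univ, hn, card_range] at this
  have hper : (σ ^ (n + 1)) e₀ = e₀ := by
    rw [← hpn, ← Equiv.Perm.iterate_eq_pow]
    exact Function.iterate_minimalPeriod
  have hbij : Function.Bijective fun i : Fin (n + 1) => (σ ^ (i : ℕ)) e₀ := by
    rw [Fintype.bijective_iff_injective_and_card]
    refine ⟨fun i j h => Fin.ext (hinj ?_ ?_ h), by simp [hn]⟩
    · simp [hpn]; omega
    · simp [hpn]; omega
  have hsucc : ∀ i : Fin (n + 1), (σ ^ ((i + 1 : Fin (n + 1)) : ℕ)) e₀ = σ ((σ ^ (i : ℕ)) e₀) := by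
    intro i
    rw [← Equiv.Perm.mul_apply, ← pow_succ', Fin.val_add_one]
    split_ifs with h
    · rw [h, Fin.val_last, hper, pow_zero, Equiv.Perm.one_apply]
    · rfl
  refine ⟨⟨Equiv.ofBijective _ hbij, by simp, fun i => ?_⟩, Subtype.ext (Equiv.ext fun e => ?_)⟩
  · simp only [Equiv.ofBijective_apply, hsucc]
    exact hσ _
  · obtain ⟨i, rfl⟩ := hbij.2 e
    simp only [toPerm, Equiv.trans_apply, Equiv.ofBijective_symm_apply_apply, Equiv.coe_addRight,
      Equiv.ofBijective_apply, hsucc]

/-- Orderings with given prescribed edges. -/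
theorem card_sel_fiber (r : V) (hd : ∀ v, 0 < outDeg src v)
    (S : ∀ v, Fib src v) :
    Nat.card {ρ : Ords src // sel r hd ρ = S} = ∏ v, (outDeg src v - 1).factorial := by
  let e1 : {ρ : Ords src // sel r hd ρ = S} ≃ {ρ : Ords src // ∀ v, ρ v (S v) = pos r hd v} :=
    Equiv.subtypeEquivRight fun ρ => by
      simp only [funext_iff, sel, Equiv.symm_apply_eq]
      exact forall_congr' fun v => eq_comm
  rw [Nat.card_congr (e1.trans (Equiv.subtypePiEquivPi
    (p := fun v (φ : Fib src v ≃ Fin (outDeg src v)) => φ (S v) = pos r hd v))), Nat.card_pi]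
  refine prod_congr rfl fun v _ => ?_
  rw [card_equiv_apply_eq (by simp [card_fib]) (S v) (pos r hd v), Fintype.card_fin]

omit [Fintype V] [Fintype E] [DecidableEq E] in
/-- Good prescribed edges are arborescences. -/
theorem card_goodSel (tgt : E → V) (e₀ : E) :
    Nat.card {S : ∀ v, Fib src v // GoodSel tgt e₀ S} =
      Nat.card (Arborescence src tgt (src e₀)) := by
  refine Nat.card_eq_of_bijective
    (fun S => ⟨fun u => (S.1 u.1).1, fun u => (S.1 u.1).2, S.2.2⟩) ⟨?_, ?_⟩
  · intro S S' h
    refine Subtype.ext (funext fun v => ?_)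
    by_cases hv : v = src e₀
    · subst hv
      exact Subtype.ext (S.2.1.trans S'.2.1.symm)
    · exact Subtype.ext (congrFun (congrArg Subtype.val h) ⟨v, hv⟩)
  · rintro ⟨T, hT, hR⟩
    refine ⟨⟨fun v => if h : v = src e₀ then ⟨e₀, h.symm⟩ else ⟨T ⟨v, h⟩, hT ⟨v, h⟩⟩, ?_, ?_⟩, ?_⟩
    · simp
    · convert hR using 3 with u
      simp only [dif_neg u.2]
    · refine Subtype.ext (funext fun u => ?_)
      simp only [dif_neg u.2]

/-- The count of tours starting with a given edge. -/
theorem card_tour (hbal : Balanced src tgt) (hd : ∀ v, 0 < outDeg src v)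
    (hn : Fintype.card E = n + 1) :
    Nat.card (Tour src tgt n e₀) =
      Nat.card (Arborescence src tgt (src e₀)) * ∏ v, (outDeg src v - 1).factorial := by
  classical
  rw [Nat.card_eq_of_bijective _ (tourOrds_bijective hbal hd hn),
    ← Nat.card_congr (Equiv.sigmaSubtypeFiberEquivSubtype (sel (src e₀) hd)
      (p := fun ρ => GoodSel tgt e₀ (sel (src e₀) hd ρ)) (q := GoodSel tgt e₀)
      (fun _ => Iff.rfl)),
    Nat.card_sigma, ← card_goodSel tgt e₀, sum_congr rfl fun S _ => card_sel_fiber _ hd S.1,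
    sum_const, card_univ, Nat.card_eq_fintype_card, smul_eq_mul]

/-- The count of circuits. -/
theorem card_circuit (hbal : Balanced src tgt) (hd : ∀ v, 0 < outDeg src v) (r : V) :
    Nat.card {σ : Equiv.Perm E // IsCircuit src tgt σ} =
      Nat.card (Arborescence src tgt r) * ∏ v, (outDeg src v - 1).factorial := by
  obtain ⟨e₀, he⟩ := card_pos.1 (hd r)
  obtain rfl : src e₀ = r := (mem_filter.1 he).2
  obtain ⟨n, hn⟩ : ∃ n, Fintype.card E = n + 1 :=
    ⟨Fintype.card E - 1, (Nat.sub_add_cancel (Fintype.card_pos_iff.2 ⟨e₀⟩)).symm⟩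
  rw [← card_tour_eq_card_circuit (e₀ := e₀) hn, card_tour hbal hd hn]

end FA.BEST
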