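import Fermat.Agent.BEST.Defs

/-!
# Tours and orderings

A tour through all edges starting with a given edge amounts to an ordering of the edges out of each
point in which the given edge is first and the last edges elsewhere form an arborescence.
-/

set_option autoImplicit false

noncomputable section

namespace FA.BEST

open Finset
open FA.MatrixTree (Rest Reaches extMap)

variable {V E : Type*} [Fintype V] [Fintype E] [DecidableEq V] [DecidableEq E]
variable {src tgt : E → V} {n : ℕ} {e₀ : E}

/-- Edges out of a point. -/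
abbrev Fib (src : E → V) (v : V) := {e // src e = v}

/-- Orderings at every point. -/
abbrev Ords (src : E → V) := ∀ v, Fib src v ≃ Fin (outDeg src v)

omit [Fintype V] [DecidableEq E] in
theorem card_fib (v : V) : Fintype.card (Fib src v) = outDeg src v :=
  Fintype.card_subtype _

/-- The place of an edge among those with the same source. -/
def rankOf (ρ : Ords src) (e : E) : ℕ := ρ (src e) ⟨e, rfl⟩

omit [Fintype V] [DecidableEq E] in
theorem rankOf_fib (ρ : Ords src) {v : V} (x : Fib src v) : rankOf ρ x.1 = ρ v x := by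
  obtain ⟨e, rfl⟩ := x
  rfl

omit [Fintype V] [DecidableEq E] in
theorem rankOf_lt (ρ : Ords src) (e : E) : rankOf ρ e < outDeg src (src e) := Fin.is_lt _

omit [Fintype V] [DecidableEq E] in
theorem rankOf_inj (ρ : Ords src) {a b : E} (hs : src a = src b)
    (h : rankOf ρ a = rankOf ρ b) : a = b := by
  have h1 := rankOf_fib ρ (v := src b) ⟨a, hs⟩
  have h2 := rankOf_fib ρ (v := src b) ⟨b, rfl⟩
  exact congrArg Subtype.val ((ρ (src b)).injective (Fin.ext (h1.symm.trans (h.trans h2))))

/-- A natural number as a position. -/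
def ix (n j : ℕ) : Fin (n + 1) := ⟨j % (n + 1), Nat.mod_lt _ n.succ_pos⟩

theorem val_ix {n j : ℕ} (h : j < n + 1) : (ix n j : ℕ) = j := Nat.mod_eq_of_lt h

@[simp] theorem ix_val {n : ℕ} (i : Fin (n + 1)) : ix n i = i := Fin.ext (val_ix i.2)

@[simp] theorem ix_zero (n : ℕ) : ix n 0 = 0 := Fin.ext (Nat.zero_mod _)

theorem ix_succ (n j : ℕ) : ix n (j + 1) = ix n j + 1 := by
  refine Fin.ext ?_
  simp [ix, Fin.val_add]

/-- The tours starting with `e₀`. -/
abbrev Tour (src tgt : E → V) (n : ℕ) (e₀ : E) :=
  {f : Fin (n + 1) ≃ E // f 0 = e₀ ∧ ∀ i, src (f (i + 1)) = tgt (f i)}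

/-- The number of earlier edges with the same source. -/
def tourRank (f : Tour src tgt n e₀) (e : E) : ℕ :=
  #{j ∈ range (f.1.symm e : ℕ) | src (f.1 (ix n j)) = src e}

omit [Fintype V] [Fintype E] [DecidableEq E] in
theorem tourRank_lt_of_lt (f : Tour src tgt n e₀) {a b : E} (hs : src a = src b)
    (h : f.1.symm a < f.1.symm b) : tourRank f a < tourRank f b := by
  refine card_lt_card (Finset.ssubset_iff_of_subset (fun j hj => ?_) |>.2
    ⟨(f.1.symm a : ℕ), ?_, ?_⟩)
  · simp only [mem_filter, mem_range] at hj ⊢
    exact ⟨hj.1.trans h, hj.2.trans hs⟩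
  · simp [Fin.lt_def.1 h, hs]
  · simp

omit [Fintype V] [DecidableEq E] in
theorem tourRank_lt (f : Tour src tgt n e₀) (e : E) : tourRank f e < outDeg src (src e) := by
  classical
  refine lt_of_lt_of_le (b := (({e' | src e' = src e} : Finset E).erase e).card + 1)
    (Nat.lt_succ_of_le ?_) (le_of_eq (card_erase_add_one (by simp)))
  refine card_le_card_of_injOn (fun j => f.1 (ix n j)) (fun j hj => ?_) ?_
  · simp only [mem_coe, mem_filter, mem_range] at hj
    simp only [mem_coe, mem_erase, mem_filter, mem_univ, true_and]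
    refine ⟨fun h => ?_, hj.2⟩
    have h1 : ((f.1.symm e : Fin (n + 1)) : ℕ) = j := by
      rw [← h, Equiv.symm_apply_apply, val_ix (by omega)]
    omega
  · intro i hi j hj h
    simp only [mem_coe, mem_filter, mem_range] at hi hj
    have h1 := congrArg Fin.val (f.1.injective h)
    rwa [val_ix (by omega), val_ix (by omega)] at h1

omit [Fintype V] [DecidableEq E] in
theorem tourRank_bijective (f : Tour src tgt n e₀) (v : V) :
    Function.Bijective fun x : Fib src v =>
      (⟨tourRank f x.1, (tourRank_lt f x.1).trans_eq (by rw [x.2])⟩ : Fin (outDeg src v)) := by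
  rw [Fintype.bijective_iff_injective_and_card]
  refine ⟨fun a b h => ?_, by simp [card_fib]⟩
  have h1 : tourRank f a.1 = tourRank f b.1 := congrArg Fin.val h
  rcases lt_trichotomy (f.1.symm a.1) (f.1.symm b.1) with hl | hl | hl
  · exact absurd h1 (tourRank_lt_of_lt f (a.2.trans b.2.symm) hl).ne
  · exact Subtype.ext (f.1.symm.injective hl)
  · exact absurd h1.symm (tourRank_lt_of_lt f (b.2.trans a.2.symm) hl).ne

/-- The orderings of a tour. -/
def tourOrds (f : Tour src tgt n e₀) : Ords src :=
  fun v => Equiv.ofBijective _ (tourRank_bijective f v)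

omit [Fintype V] [DecidableEq E] in
theorem rankOf_tourOrds (f : Tour src tgt n e₀) (e : E) :
    rankOf (tourOrds f) e = tourRank f e := rfl

omit [Fintype V] [DecidableEq E] in
theorem tourOrds_injective : Function.Injective (tourOrds (src := src) (tgt := tgt) (n := n)
    (e₀ := e₀)) := by
  intro f g h
  have hr : ∀ e, tourRank f e = tourRank g e := fun e => by
    rw [← rankOf_tourOrds, ← rankOf_tourOrds, h]
  suffices ∀ k : ℕ, k < n + 1 → f.1 (ix n k) = g.1 (ix n k) by
    refine Subtype.ext (Equiv.ext fun i => ?_)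
    simpa using this i.1 i.2
  intro k
  induction k using Nat.strong_induction_on with
  | _ k ih =>
    intro hk
    rcases Nat.eq_zero_or_pos k with rfl | hpos
    · simp [f.2.1, g.2.1]
    obtain ⟨k, rfl⟩ : ∃ m, k = m + 1 := ⟨k - 1, by omega⟩
    have hs : src (f.1 (ix n (k + 1))) = src (g.1 (ix n (k + 1))) := by
      rw [ix_succ, f.2.2, g.2.2, ih k k.lt_succ_self (by omega)]
    refine rankOf_inj (tourOrds f) hs ?_
    rw [rankOf_tourOrds, rankOf_tourOrds, hr (g.1 _)]
    simp only [tourRank, Equiv.symm_apply_apply, val_ix hk]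
    congr 1
    refine filter_congr fun j hj => ?_
    rw [ih j (mem_range.1 hj) (by have := mem_range.1 hj; omega), hs]

/-- The position of the prescribed edge: first at the root, last elsewhere. -/
def pos (r : V) (hd : ∀ v, 0 < outDeg src v) (v : V) : Fin (outDeg src v) :=
  if v = r then ⟨0, hd v⟩ else ⟨outDeg src v - 1, Nat.sub_lt (hd v) one_pos⟩

/-- The prescribed edges. -/
def sel (r : V) (hd : ∀ v, 0 < outDeg src v) (ρ : Ords src) : ∀ v, Fib src v :=
  fun v => (ρ v).symm (pos r hd v)

/-- The given edge is first and the last edges lead to the root. -/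
def GoodSel (tgt : E → V) (e₀ : E) (S : ∀ v, Fib src v) : Prop :=
  (S (src e₀)).1 = e₀ ∧ Reaches (src e₀) fun u : Rest (src e₀) => tgt (S u.1).1

omit [Fintype V] [DecidableEq E] in
theorem rankOf_sel (r : V) (hd : ∀ v, 0 < outDeg src v) (ρ : Ords src) (v : V) :
    rankOf ρ (sel r hd ρ v).1 = pos r hd v := by
  rw [rankOf_fib]
  simp [sel]

omit [Fintype V] [DecidableEq E] in
theorem goodSel_tourOrds (hd : ∀ v, 0 < outDeg src v) (f : Tour src tgt n e₀) :
    GoodSel tgt e₀ (sel (src e₀) hd (tourOrds f)) := by
  set r := src e₀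
  set S := sel r hd (tourOrds f) with hS
  constructor
  · refine rankOf_inj (tourOrds f) ((S r).2) ?_
    rw [rankOf_sel, rankOf_tourOrds]
    simp [pos, r, tourRank, f.1.symm_apply_eq.2 f.2.1.symm]
  have hlast : ∀ v, v ≠ r → ∀ e, src e = v → f.1.symm e ≤ f.1.symm (S v).1 := by
    intro v hv e he
    by_contra hlt
    have h1 := tourRank_lt_of_lt f ((S v).2.trans he.symm) (not_le.1 hlt)
    have h2 := tourRank_lt f e
    rw [← rankOf_tourOrds f (S v).1, hS, rankOf_sel] at h1
    simp only [pos, if_neg hv, he] at h1 h2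
    omega
  suffices ∀ k : ℕ, ∀ v, v ≠ r → n + 1 ≤ (f.1.symm (S v).1 : ℕ) + k →
      ∃ j, (extMap r fun u : Rest r => tgt (S u.1).1)^[j] v = r by
    intro v
    by_cases hv : v = r
    · exact ⟨0, hv⟩
    · exact this (n + 1) v hv (by omega)
  intro k
  induction k with
  | zero => intro v _ h; exact absurd (f.1.symm (S v).1).2 (by omega)
  | succ k ih =>
    intro v hv h
    set i := f.1.symm (S v).1 with hi
    have hw : src (f.1 (i + 1)) = tgt (S v).1 := by rw [f.2.2, hi, Equiv.apply_symm_apply]
    have hstep : extMap r (fun u : Rest r => tgt (S u.1).1) v = tgt (S v).1 := by simp [extMap, hv]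
    by_cases hwr : tgt (S v).1 = r
    · exact ⟨1, by simpa [hstep] using hwr⟩
    have hi0 : i + 1 ≠ 0 := fun h0 => hwr (by rw [← hw, h0, f.2.1])
    have hlt : (i : ℕ) + 1 ≤ (f.1.symm (S (tgt (S v).1)).1 : ℕ) := by
      have h1 := Fin.le_def.1 (hlast _ hwr _ hw)
      rw [Equiv.symm_apply_apply, Fin.val_add_one] at h1
      split_ifs at h1 with h2
      · exact absurd (by simp [h2]) hi0
      · exact h1
    obtain ⟨j, hj⟩ := ih _ hwr (by omega)
    exact ⟨j + 1, by rw [Function.iterate_succ_apply, hstep, hj]⟩

/-- A walk following the orderings for `l` steps. -/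
def Follows (src tgt : E → V) (ρ : Ords src) (e₀ : E) (l : ℕ) (g : ℕ → E) : Prop :=
  g 0 = e₀ ∧ (∀ i, i + 1 < l → src (g (i + 1)) = tgt (g i)) ∧
    ∀ i < l, rankOf ρ (g i) = #{j ∈ range i | src (g j) = src (g i)}

omit [Fintype V] [DecidableEq E] in
theorem follows_injOn {ρ : Ords src} {l : ℕ} {g : ℕ → E} (hg : Follows src tgt ρ e₀ l g) :
    Set.InjOn g (range l : Finset ℕ) := by
  intro i hi j hj h
  simp only [coe_range, Set.mem_Iio] at hi hj
  rcases lt_trichotomy i j with hl | hl | hl
  · have h1 : #{k ∈ range i | src (g k) = src (g i)} < #{k ∈ range j | src (g k) = src (g j)} := by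
      refine card_lt_card ((Finset.ssubset_iff_of_subset fun k hk => ?_).2 ⟨i, ?_, ?_⟩)
      · simp only [mem_filter, mem_range] at hk ⊢
        exact ⟨hk.1.trans hl, h ▸ hk.2⟩
      · simp [hl, h]
      · simp
    rw [← hg.2.2 i hi, ← hg.2.2 j hj, h] at h1
    exact absurd h1 (lt_irrefl _)
  · exact hl
  · have h1 : #{k ∈ range j | src (g k) = src (g j)} < #{k ∈ range i | src (g k) = src (g i)} := by
      refine card_lt_card ((Finset.ssubset_iff_of_subset fun k hk => ?_).2 ⟨j, ?_, ?_⟩)
      · simp only [mem_filter, mem_range] at hk ⊢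
        exact ⟨hk.1.trans hl, h.symm ▸ hk.2⟩
      · simp [hl, h]
      · simp
    rw [← hg.2.2 i hi, ← hg.2.2 j hj, h] at h1
    exact absurd h1 (lt_irrefl _)

omit [Fintype V] [DecidableEq E] in
theorem follows_balance {ρ : Ords src} {l : ℕ} {g : ℕ → E}
    (hg : Follows src tgt ρ e₀ (l + 1) g) (w : V) :
    #{j ∈ range (l + 1) | tgt (g j) = w} + (if src e₀ = w then 1 else 0) =
      #{j ∈ range (l + 1) | src (g j) = w} + if tgt (g l) = w then 1 else 0 := by
  simp only [card_filter]
  rw [sum_range_succ' (fun j => if src (g j) = w then 1 else 0), hg.1,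
    sum_range_succ (fun j => if tgt (g j) = w then 1 else 0)]
  have : ∀ j ∈ range l, (if src (g (j + 1)) = w then 1 else 0) =
      if tgt (g j) = w then 1 else 0 := fun j hj => by
    rw [hg.2.1 j (by have := mem_range.1 hj; omega)]
  rw [sum_congr rfl this]
  ring

omit [Fintype V] in
theorem used_eq_iff {g : ℕ → E} {l : ℕ} (hinj : Set.InjOn g (range l : Finset ℕ)) (p : E → Prop)
    [DecidablePred p] :
    #{j ∈ range l | p (g j)} ≤ #{e | p e} ∧
      (#{e | p e} ≤ #{j ∈ range l | p (g j)} ↔ ∀ e, p e → e ∈ (range l).image g) := by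
  have h1 : #{j ∈ range l | p (g j)} = #(((range l).image g).filter p) := by
    rw [filter_image, card_image_of_injOn (hinj.mono (coe_subset.2 (filter_subset _ _)))]
  have hsub : ((range l).image g).filter p ⊆ ({e | p e} : Finset E) := fun e he => by
    simp only [mem_filter] at he
    simp [he.2]
  rw [h1]
  refine ⟨card_le_card hsub, fun h e he => ?_, fun h => card_le_card fun e he => ?_⟩
  · have := eq_of_subset_of_card_le hsub h
    have hm : e ∈ ({e | p e} : Finset E) := by simp [he]
    rw [← this] at hm
    exact (mem_filter.1 hm).1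
  · simp only [mem_filter, mem_univ, true_and] at he
    exact mem_filter.2 ⟨h e he, he⟩

omit [Fintype V] in
theorem exists_follows (hbal : Balanced src tgt) (hd : ∀ v, 0 < outDeg src v)
    (hn : Fintype.card E = n + 1) (ρ : Ords src) (hS : GoodSel tgt e₀ (sel (src e₀) hd ρ)) :
    ∀ l ≤ n, ∃ g, Follows src tgt ρ e₀ (l + 1) g := by
  intro l hl
  induction l with
  | zero =>
    refine ⟨fun _ => e₀, rfl, fun i hi => absurd hi (by omega), fun i hi => ?_⟩
    obtain rfl : i = 0 := by omega
    have h := rankOf_sel (src e₀) hd ρ (src e₀)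
    rw [hS.1] at h
    simp [h, pos]
  | succ l ih =>
    obtain ⟨g, hg⟩ := ih (by omega)
    set v := tgt (g l) with hv
    by_cases hc : #{j ∈ range (l + 1) | src (g j) = v} < outDeg src v
    · obtain ⟨⟨e, he⟩, hx⟩ := (ρ v).surjective ⟨_, hc⟩
      have hlt : ∀ {i}, i < l + 1 → Function.update g (l + 1) e i = g i := fun hi =>
        Function.update_of_ne (by omega) _ _
      have hcount : ∀ i ≤ l + 1, ∀ w,
          #{j ∈ range i | src (Function.update g (l + 1) e j) = w} =
            #{j ∈ range i | src (g j) = w} := fun i hi w =>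
        congrArg card (filter_congr fun j hj => by rw [hlt (by have := mem_range.1 hj; omega)])
      refine ⟨Function.update g (l + 1) e, by rw [hlt (by omega)]; exact hg.1,
        fun i hi => ?_, fun i hi => ?_⟩
      · rcases Nat.lt_or_ge (i + 1) (l + 1) with h | h
        · rw [hlt h, hlt (by omega)]
          exact hg.2.1 i h
        · obtain rfl : i = l := by omega
          rw [Function.update_self, hlt (by omega), he]
      · rcases Nat.lt_or_ge i (l + 1) with h | h
        · rw [hlt h, hcount i h.le]
          exact hg.2.2 i h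
        · obtain rfl : i = l + 1 := by omega
          rw [Function.update_self, hcount _ le_rfl, he, rankOf_fib ρ ⟨e, he⟩, hx]
    exfalso
    set used := (range (l + 1)).image g with hused
    have hinj := follows_injOn hg
    have hout : ∀ w, #{j ∈ range (l + 1) | src (g j) = w} ≤ outDeg src w ∧
        (outDeg src w ≤ #{j ∈ range (l + 1) | src (g j) = w} ↔ ∀ e, src e = w → e ∈ used) :=
      fun w => used_eq_iff hinj fun e => src e = w
    have hin : ∀ w, #{j ∈ range (l + 1) | tgt (g j) = w} ≤ outDeg src w ∧
        (outDeg src w ≤ #{j ∈ range (l + 1) | tgt (g j) = w} ↔ ∀ e, tgt e = w → e ∈ used) :=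
      fun w => by
        rw [show outDeg src w = #{e | tgt e = w} from hbal w]
        exact used_eq_iff hinj fun e => tgt e = w
    have hvr : src e₀ = v := by
      by_contra hne
      have hb := follows_balance hg v
      rw [if_neg hne, if_pos hv.symm] at hb
      have := (hin v).1
      omega
    have hbalw : ∀ w, #{j ∈ range (l + 1) | tgt (g j) = w} =
        #{j ∈ range (l + 1) | src (g j) = w} := fun w => by
      have hb := follows_balance hg w
      rw [← hv, ← hvr] at hb
      omega
    have hall : ∀ k u, (extMap (src e₀) fun u : Rest (src e₀) =>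
        tgt (sel (src e₀) hd ρ u.1).1)^[k] u = src e₀ →
        outDeg src u ≤ #{j ∈ range (l + 1) | src (g j) = u} := by
      intro k
      induction k with
      | zero =>
        intro u hu
        rw [Function.iterate_zero_apply] at hu
        rw [hu, hvr]
        exact not_lt.1 hc
      | succ k ihk =>
        intro u hu
        by_cases hur : u = src e₀
        · rw [hur, hvr]
          exact not_lt.1 hc
        rw [Function.iterate_succ_apply] at hu
        have h1 := ihk _ hu
        rw [← hbalw, (hin _).2] at h1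
        have hmem : (sel (src e₀) hd ρ u).1 ∈ used := h1 _ (by simp [extMap, hur])
        obtain ⟨i, hi, hgi⟩ := mem_image.1 hmem
        have hi' := mem_range.1 hi
        have h2 := hg.2.2 i hi'
        rw [hgi, rankOf_sel, (sel (src e₀) hd ρ u).2] at h2
        simp only [pos, if_neg hur] at h2
        have h3 : #{j ∈ range i | src (g j) = u} < #{j ∈ range (l + 1) | src (g j) = u} := by
          refine card_lt_card ((Finset.ssubset_iff_of_subset fun k hk => ?_).2 ⟨i, ?_, ?_⟩)
          · simp only [mem_filter, mem_range] at hk ⊢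
            exact ⟨hk.1.trans hi', hk.2⟩
          · simp [hi', hgi, (sel (src e₀) hd ρ u).2]
          · simp
        omega
    have hcover : (univ : Finset E) ⊆ used := fun e _ => by
      obtain ⟨k, hk⟩ := hS.2 (src e)
      exact (hout (src e)).2.1 (hall k _ hk) e rfl
    have h4 := (card_le_card hcover).trans card_image_le
    rw [card_univ, hn, card_range] at h4
    omega

omit [Fintype V] in
/-- Tours are the orderings with good prescribed edges. -/
theorem tourOrds_bijective (hbal : Balanced src tgt) (hd : ∀ v, 0 < outDeg src v)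
    (hn : Fintype.card E = n + 1) :
    Function.Bijective fun f : Tour src tgt n e₀ =>
      (⟨tourOrds f, goodSel_tourOrds hd f⟩ :
        {ρ : Ords src // GoodSel tgt e₀ (sel (src e₀) hd ρ)}) := by
  refine ⟨fun f g h => tourOrds_injective (congrArg Subtype.val h), fun ⟨ρ, hS⟩ => ?_⟩
  obtain ⟨g, hg⟩ := exists_follows hbal hd hn ρ hS n le_rfl
  have hinj := follows_injOn hg
  have hbij : Function.Bijective fun i : Fin (n + 1) => g i := by
    rw [Fintype.bijective_iff_injective_and_card]
    exact ⟨fun i j h => Fin.ext (hinj (by simp [i.2]) (by simp [j.2]) h), by simp [hn]⟩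
  have hlast : tgt (g n) = src e₀ := by
    have hb := follows_balance hg (tgt (g n))
    have hall : ∀ e, e ∈ (range (n + 1)).image g := fun e => by
      obtain ⟨i, rfl⟩ := hbij.2 e
      exact mem_image_of_mem g (mem_range.2 i.2)
    have h1 := (used_eq_iff hinj fun e => src e = tgt (g n))
    have h2 := (used_eq_iff hinj fun e => tgt e = tgt (g n))
    have h3 := h1.2.2 fun e _ => hall e
    have h4 := hbal (tgt (g n))
    by_contra hne
    rw [if_neg (Ne.symm hne), if_pos rfl] at hb
    have h5 := h2.1
    omega
  let f : Tour src tgt n e₀ := ⟨Equiv.ofBijective _ hbij, by simpa using hg.1, fun i => by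
    simp only [Equiv.ofBijective_apply, Fin.val_add_one]
    split_ifs with h
    · rw [h, Fin.val_last, hlast, hg.1]
    · exact hg.2.1 i (by
        have := i.2
        have : (i : ℕ) ≠ n := fun h' => h (Fin.ext (by simp [h']))
        omega)⟩
  refine ⟨f, Subtype.ext (funext fun v => Equiv.ext fun x => Fin.ext ?_)⟩
  change ((tourOrds f v) x : ℕ) = ρ v x
  rw [← rankOf_fib, ← rankOf_fib, rankOf_tourOrds, tourRank]
  obtain ⟨i, hi⟩ := hbij.2 x.1
  have hi' : f.1.symm x.1 = i := f.1.symm_apply_eq.2 hi.symm
  rw [hi', ← hi, hg.2.2 i i.2]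
  refine congrArg card (filter_congr fun j hj => ?_)
  have hj' := mem_range.1 hj
  simp [f, val_ix (show j < n + 1 by have := i.2; omega)]

end FA.BEST
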